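import Fermat.Agent.LT.T6.H385.DescSpec

/-!
# Row LT, tower T6, leaf T6.18i.6c `BaseOrbExC385` (helper382), OFF-MAIN

`baseOrbExC_of_propBase382 : H385.PropBaseC385 → H385.BaseOrbExC385`
(registry row 1425; Spec = `LT/T6/H385/DescSpec.lean` of helper385, byte-identical copy).

Proof.  Let `F` be a finite set of cosets carrying the support of `φ` and `X₀` the finite set
given by `PropBaseC385` for `F`.  Every `y = x⁻¹ δ₀ σ(x)` with `φ y ≠ 0` has `x = d x₀ u`,
`d` in the twisted centraliser of `δ₀`, `x₀ ∈ X₀`, `u ∈ U(n)`, so `y = u⁻¹ (x₀⁻¹ δ₀ σ(x₀)) σ(u)`.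
The twisted conjugation by `U(n)` is an equivalence relation (`U(n)` is a subgroup); the set `R`
of the chosen representatives of the classes of the `x₀⁻¹ δ₀ σ(x₀)`, `x₀ ∈ X₀`, is finite, lies in
the twisted class of `δ₀`, consists of pairwise inequivalent elements and meets every class on
which `φ ≠ 0`.  GENERIC part: `exists_orbSumGen_of_cover382` (any group, any subgroup predicate).
-/

set_option autoImplicit false

open scoped Matrix

noncomputable section

namespace Fermat.Agent.LT.T6.H382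

open Fermat.Agent.LT.T6 Fermat.Agent.LT.T6.H783 Fermat.Agent.LT.T6.H385

/-! ## The generic statement -/

section Generic

variable {Γ : Type} [Group Γ]

/-- Twisted conjugation by the subgroup `U`, as a setoid. -/
def twSetoid382 (s : Γ →* Γ) (U : Γ → Prop) (h1 : U 1) (hmul : ∀ u v : Γ, U u → U v → U (u * v))
    (hinv : ∀ u : Γ, U u → U u⁻¹) : Setoid Γ where
  r y y' := ∃ u : Γ, U u ∧ y' = u⁻¹ * y * s u
  iseqv := by
    refine ⟨fun y => ⟨1, h1, by simp⟩, ?_, ?_⟩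
    · rintro y y' ⟨u, hu, rfl⟩
      refine ⟨u⁻¹, hinv u hu, ?_⟩
      simp only [inv_inv, map_inv]
      group
    · rintro y y' y'' ⟨u, hu, rfl⟩ ⟨v, hv, rfl⟩
      refine ⟨u * v, hmul u v hu hv, ?_⟩
      simp only [mul_inv_rev, map_mul]
      group

/-- **Existence of orbit sums from a finite covering family** (generic in `IsOrbSumGen`):
if the elements `y` of the `s`-conjugacy class of `δ` with `φ y ≠ 0` are all `U`-twisted
conjugate to elements of a finite set `R₀` of the class, the orbit sum exists. -/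
theorem exists_orbSumGen_of_cover382 (s : Γ →* Γ) (U : Γ → Prop) (C : Γ → Γ → Prop)
    (h1 : U 1) (hmul : ∀ u v : Γ, U u → U v → U (u * v)) (hinv : ∀ u : Γ, U u → U u⁻¹)
    (φ : Γ → ℂ) (δ : Γ) (R₀ : Finset Γ)
    (hR₀ : ∀ y ∈ R₀, ∃ x : Γ, y = x⁻¹ * δ * s x)
    (hcov : ∀ y : Γ, (∃ x : Γ, y = x⁻¹ * δ * s x) → φ y ≠ 0 →
      ∃ y' ∈ R₀, ∃ u : Γ, U u ∧ y = u⁻¹ * y' * s u) :
    ∃ c : ℂ, IsOrbSumGen s U C φ δ c := by
  classical
  let S : Setoid Γ := twSetoid382 s U h1 hmul hinv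
  let rep : Γ → Γ := fun y => Quotient.out (Quotient.mk S y)
  have hrep : ∀ y : Γ, ∃ u : Γ, U u ∧ rep y = u⁻¹ * y * s u := by
    intro y
    have h : S.r (rep y) y := Quotient.exact (Quotient.out_eq (Quotient.mk S y))
    exact S.iseqv.symm h
  have hrep' : ∀ y : Γ, ∃ u : Γ, U u ∧ y = u⁻¹ * rep y * s u := by
    intro y
    exact Quotient.exact (Quotient.out_eq (Quotient.mk S y))
  refine ⟨∑ y ∈ R₀.image rep, φ y * (cIndex U C y : ℂ), R₀.image rep, ?_, ?_, ?_, rfl⟩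
  · intro y hy
    obtain ⟨y₀, hy₀, rfl⟩ := Finset.mem_image.mp hy
    obtain ⟨x, rfl⟩ := hR₀ y₀ hy₀
    obtain ⟨u, -, hu⟩ := hrep (x⁻¹ * δ * s x)
    refine ⟨x * u, ?_⟩
    rw [hu]
    simp only [mul_inv_rev, map_mul]
    group
  · intro y hy y' hy' hyy'
    obtain ⟨y₀, -, rfl⟩ := Finset.mem_image.mp hy
    obtain ⟨y₁, -, rfl⟩ := Finset.mem_image.mp hy'
    have h : S.r (rep y₀) (rep y₁) := hyy'
    have h2 : Quotient.mk S (rep y₀) = Quotient.mk S (rep y₁) := Quotient.sound h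
    have h3 : Quotient.mk S y₀ = Quotient.mk S y₁ := by
      have e0 : Quotient.mk S (rep y₀) = Quotient.mk S y₀ := Quotient.out_eq _
      have e1 : Quotient.mk S (rep y₁) = Quotient.mk S y₁ := Quotient.out_eq _
      rw [← e0, ← e1]
      exact h2
    show Quotient.out (Quotient.mk S y₀) = Quotient.out (Quotient.mk S y₁)
    rw [h3]
  · intro y hy hφ
    obtain ⟨y', hy', u, hu, rfl⟩ := hcov y hy hφ
    refine ⟨rep y', Finset.mem_image_of_mem rep hy', ?_⟩
    obtain ⟨v, hv, hv'⟩ := hrep' y'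
    refine ⟨v * u, hmul v u hv hu, ?_⟩
    conv_lhs => rw [hv']
    simp only [mul_inv_rev, map_mul]
    group

end Generic

/-! ## `U(n)` is a subgroup -/

section InU

variable {k' : Type} [Field k'] [Valued k' Γ₀]

theorem exp_neg_le_one382 (n : ℕ) : (WithZero.exp (-(n : ℤ)) : Γ₀) ≤ 1 := by
  rw [← WithZero.exp_zero, WithZero.exp_le_exp]
  omega

/-- The entries of `A B - 1` are small if those of `A - 1` and `B - 1` are. -/
theorem small_mul382 (n : ℕ) (A B : Matrix (Fin 2) (Fin 2) k')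
    (hA : ∀ a b : Fin 2, Valued.v (A a b - (1 : Matrix (Fin 2) (Fin 2) k') a b)
      ≤ WithZero.exp (-(n : ℤ)))
    (hB : ∀ a b : Fin 2, Valued.v (B a b - (1 : Matrix (Fin 2) (Fin 2) k') a b)
      ≤ WithZero.exp (-(n : ℤ))) :
    ∀ a b : Fin 2, Valued.v ((A * B) a b - (1 : Matrix (Fin 2) (Fin 2) k') a b)
      ≤ WithZero.exp (-(n : ℤ)) := by
  intro a b
  have hε : (WithZero.exp (-(n : ℤ)) : Γ₀) ≤ 1 := exp_neg_le_one382 n
  -- entries of `B` are integral
  have hB1 : ∀ c d : Fin 2, Valued.v (B c d) ≤ 1 := by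
    intro c d
    have e : B c d = (B c d - (1 : Matrix (Fin 2) (Fin 2) k') c d)
        + (1 : Matrix (Fin 2) (Fin 2) k') c d := by ring
    rw [e]
    refine (Valuation.map_add_le_max' _ _ _).trans (max_le ((hB c d).trans hε) ?_)
    by_cases hcd : c = d
    · subst hcd
      simp
    · simp [Matrix.one_apply_ne hcd]
  have key : (A * B) a b - (1 : Matrix (Fin 2) (Fin 2) k') a b
      = (A a 0 - (1 : Matrix (Fin 2) (Fin 2) k') a 0) * B 0 b
        + (A a 1 - (1 : Matrix (Fin 2) (Fin 2) k') a 1) * B 1 b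
        + (B a b - (1 : Matrix (Fin 2) (Fin 2) k') a b) := by
    have hmat : A * B - 1 = (A - 1) * B + (B - 1) := by
      rw [sub_mul, one_mul]
      abel
    have h := congrFun (congrFun hmat a) b
    simp only [Matrix.sub_apply, Matrix.add_apply, Matrix.mul_apply, Fin.sum_univ_two] at h
    rw [Matrix.mul_apply, Fin.sum_univ_two]
    exact h
  rw [key]
  have t0 : Valued.v ((A a 0 - (1 : Matrix (Fin 2) (Fin 2) k') a 0) * B 0 b)
      ≤ WithZero.exp (-(n : ℤ)) := by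
    rw [Valuation.map_mul]
    calc Valued.v (A a 0 - (1 : Matrix (Fin 2) (Fin 2) k') a 0) * Valued.v (B 0 b)
        ≤ WithZero.exp (-(n : ℤ)) * 1 := mul_le_mul' (hA a 0) (hB1 0 b)
      _ = WithZero.exp (-(n : ℤ)) := mul_one _
  have t1 : Valued.v ((A a 1 - (1 : Matrix (Fin 2) (Fin 2) k') a 1) * B 1 b)
      ≤ WithZero.exp (-(n : ℤ)) := by
    rw [Valuation.map_mul]
    calc Valued.v (A a 1 - (1 : Matrix (Fin 2) (Fin 2) k') a 1) * Valued.v (B 1 b)
        ≤ WithZero.exp (-(n : ℤ)) * 1 := mul_le_mul' (hA a 1) (hB1 1 b)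
      _ = WithZero.exp (-(n : ℤ)) := mul_one _
  exact (Valuation.map_add_le_max' _ _ _).trans
    (max_le ((Valuation.map_add_le_max' _ _ _).trans (max_le t0 t1)) (hB a b))

theorem inU_one382 (n : ℕ) : InU n (1 : GL (Fin 2) k') := by
  intro a b
  simp

theorem inU_inv382 {n : ℕ} {g : GL (Fin 2) k'} (hg : InU n g) : InU n g⁻¹ := by
  intro a b
  refine ⟨(hg a b).2, ?_⟩
  rw [inv_inv]
  exact (hg a b).1

theorem inU_mul382 {n : ℕ} {g h : GL (Fin 2) k'} (hg : InU n g) (hh : InU n h) :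
    InU n (g * h) := by
  intro a b
  refine ⟨?_, ?_⟩
  · have := small_mul382 n (g : Matrix (Fin 2) (Fin 2) k') (h : Matrix (Fin 2) (Fin 2) k')
      (fun c d => (hg c d).1) (fun c d => (hh c d).1) a b
    simpa using this
  · have := small_mul382 n ((h⁻¹ : GL (Fin 2) k') : Matrix (Fin 2) (Fin 2) k')
      ((g⁻¹ : GL (Fin 2) k') : Matrix (Fin 2) (Fin 2) k')
      (fun c d => (hh c d).2) (fun c d => (hg c d).2) a b
    rw [mul_inv_rev]
    simpa using this

end InU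

/-! ## The leaf -/

/-- **Leaf T6.18i.6c** (registry row 1425): `PropBaseC385 → BaseOrbExC385`. -/
theorem baseOrbExC_of_propBase382 (hP : PropBaseC385) : BaseOrbExC385 := by
  intro k k' _ _ _ _ q e i s n φ hbad z hz hzn δ₀ hδ₀
  obtain ⟨F, hF⟩ := hbad.supp
  have hquad : QuadData385 k k' q e i s := ⟨hbad.hk, hbad.hk', hbad.ext⟩
  obtain ⟨X₀, hX₀⟩ := hP k k' q e i s hquad z hz hzn n δ₀ hδ₀ F
  classical
  refine exists_orbSumGen_of_cover382 (glAut s) (InU n) (InTwCentC s) (inU_one382 n)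
    (fun u v hu hv => inU_mul382 hu hv) (fun u hu => inU_inv382 hu) φ δ₀
    (X₀.image fun x₀ => x₀⁻¹ * δ₀ * glAut s x₀) ?_ ?_
  · intro y hy
    obtain ⟨x₀, -, rfl⟩ := Finset.mem_image.mp hy
    exact ⟨x₀, rfl⟩
  · rintro y ⟨x, rfl⟩ hφ
    obtain ⟨f, hf, u, hu, hfu⟩ := hF _ hφ
    obtain ⟨d, x₀, v, hd, hx₀, hv, rfl⟩ := hX₀ x ⟨f, hf, u, hu, hfu⟩
    refine ⟨x₀⁻¹ * δ₀ * glAut s x₀, Finset.mem_image_of_mem _ hx₀, v, hv, ?_⟩
    have hd' : d⁻¹ * δ₀ * glAut s d = δ₀ := hd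
    calc (d * x₀ * v)⁻¹ * δ₀ * glAut s (d * x₀ * v)
        = v⁻¹ * (x₀⁻¹ * (d⁻¹ * δ₀ * glAut s d) * glAut s x₀) * glAut s v := by
          simp only [mul_inv_rev, map_mul]
          group
      _ = v⁻¹ * (x₀⁻¹ * δ₀ * glAut s x₀) * glAut s v := by rw [hd']

end Fermat.Agent.LT.T6.H382

end
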